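import Mathlib
import Fermat.Agent.Lib.FFSep.Norm

/-!
# S37 [RMAP] — the norm of a function regular over a set of points (helper16)

`F / K` a function field (Prelude vocabulary `AlgebraicCurve.Place`), `K` algebraically closed,
`x : F` transcendental with `F / K(x)` finite separable.

`exists_norm_rat` : let `y ≠ 0` be regular at every place over the points `x = b'`, `b' ∈ D`, and
vanish at some place over `x = b`, `b ∈ D`.  Then `N_{F/K(x)} y = f(x) / g(x)` with `g` without
roots in `D` and `f(b) = 0`.  (Fibrewise norm formula of `Lib/FFSep/Norm`.)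
-/

set_option autoImplicit false

namespace Fermat.Agent.S37.RMap

open AlgebraicCurve IntermediateField Polynomial Fermat.Agent.Lib

section PolyAtPlace

variable {K F : Type*} [Field K] [Field F] [Algebra K F]

/-- `x` is regular at the zeros of `x - a`. -/
lemma mem_of_ord_sub_pos (v : Place K F) {x : F} {a : K}
    (h : 0 < v.ord (x - algebraMap K F a)) : x ∈ v.toValuationSubring := by
  have hne : x - algebraMap K F a ≠ 0 := by
    intro h0
    rw [h0, Place.ord_zero] at h
    exact lt_irrefl _ h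
  have h1 : x - algebraMap K F a ∈ v.toValuationSubring :=
    (FFPlaces.mem_iff_ord_nonneg v hne).mpr h.le
  have h2 := v.toValuationSubring.add_mem _ _ h1 (v.algebraMap_mem' a)
  rwa [sub_add_cancel] at h2

/-- Polynomials in `x` are regular where `x` is. -/
lemma aeval_mem_of_mem (v : Place K F) {x : F} (hx : x ∈ v.toValuationSubring) (p : K[X]) :
    aeval x p ∈ v.toValuationSubring := by
  rw [aeval_eq_sum_range]
  refine Subring.sum_mem _ fun i _ => ?_
  rw [Algebra.smul_def]
  exact v.toValuationSubring.mul_mem _ _ (v.algebraMap_mem' _)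
    (v.toValuationSubring.pow_mem hx i)

/-- Taylor expansion to first order. -/
lemma aeval_eq_add (x : F) (a : K) (p : K[X]) :
    aeval x p = algebraMap K F (p.eval a) +
      (x - algebraMap K F a) * aeval x (p /ₘ (X - C a)) := by
  have h := modByMonic_add_div p (X - C a)
  rw [modByMonic_X_sub_C_eq_C_eval] at h
  conv_lhs => rw [← h]
  rw [map_add, map_mul, aeval_C, map_sub, aeval_X, aeval_C]

/-- The second term of the Taylor expansion vanishes at the zeros of `x - a`. -/
lemma taylor_term (v : Place K F) {x : F} {a : K} (h : 0 < v.ord (x - algebraMap K F a))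
    (q : K[X]) :
    (x - algebraMap K F a) * aeval x q = 0 ∨
      0 < v.ord ((x - algebraMap K F a) * aeval x q) := by
  by_cases hq : aeval x q = 0
  · left; rw [hq, mul_zero]
  right
  have hne : x - algebraMap K F a ≠ 0 := by
    intro h0
    rw [h0, Place.ord_zero] at h
    exact lt_irrefl _ h
  rw [v.ord_mul hne hq]
  have := (FFPlaces.mem_iff_ord_nonneg v hq).mp (aeval_mem_of_mem v (mem_of_ord_sub_pos v h) q)
  omega

/-- A polynomial not vanishing at `a` is a unit at the zeros of `x - a`. -/
lemma ord_aeval_eq_zero (v : Place K F) {x : F} {a : K} (h : 0 < v.ord (x - algebraMap K F a))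
    (p : K[X]) (hp : p.eval a ≠ 0) : aeval x p ≠ 0 ∧ v.ord (aeval x p) = 0 := by
  have hc0 : algebraMap K F (p.eval a) ≠ 0 := by simpa using hp
  have hc : ¬ (algebraMap K F (p.eval a) = 0 ∨ 0 < v.ord (algebraMap K F (p.eval a))) := by
    rw [FFPlaces.ord_algebraMap]
    rintro (h0 | h0)
    · exact hc0 h0
    · exact lt_irrefl _ h0
  have ht := taylor_term v h (p /ₘ (X - C a))
  have hnot : ¬ (aeval x p = 0 ∨ 0 < v.ord (aeval x p)) := by
    intro h1
    apply hc
    have ht' : -((x - algebraMap K F a) * aeval x (p /ₘ (X - C a))) = 0 ∨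
        0 < v.ord (-((x - algebraMap K F a) * aeval x (p /ₘ (X - C a)))) := by
      rcases ht with h0 | h0
      · left; rw [h0, neg_zero]
      · right; rwa [FFSep.ord_neg_eq]
    have h2 := FFSep.eq_zero_or_ord_pos_add v h1 ht'
    rwa [aeval_eq_add x a p, add_neg_cancel_right] at h2
  have hne : aeval x p ≠ 0 := fun h0 => hnot (Or.inl h0)
  refine ⟨hne, ?_⟩
  have h3 := (FFPlaces.mem_iff_ord_nonneg v hne).mp
    (aeval_mem_of_mem v (mem_of_ord_sub_pos v h) p)
  have h4 : ¬ 0 < v.ord (aeval x p) := fun h0 => hnot (Or.inr h0)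
  omega

/-- A polynomial vanishing at `a` vanishes at the zeros of `x - a`. -/
lemma ord_aeval_pos (v : Place K F) {x : F} {a : K} (h : 0 < v.ord (x - algebraMap K F a))
    (p : K[X]) (hp : p.eval a = 0) (hp0 : aeval x p ≠ 0) : 0 < v.ord (aeval x p) := by
  have ht := taylor_term v h (p /ₘ (X - C a))
  have h1 := aeval_eq_add x a p
  rw [hp, map_zero, zero_add] at h1
  rw [← h1] at ht
  exact ht.resolve_left hp0

end PolyAtPlace

section Norm

variable {K F : Type*} [Field K] [Field F] [Algebra K F] {x : F}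
variable [FiniteDimensional K⟮x⟯ F] [Algebra.IsSeparable K⟮x⟯ F] [IsAlgClosed K]

/-- There is a place over every point `x = a`. -/
lemma exists_zero (hxt : Transcendental K x) (a : K) :
    ∃ v : Place K F, 0 < v.ord (x - algebraMap K F a) := by
  by_contra hcon
  push Not at hcon
  have hS : {v : Place K F | 0 < v.ord (x - algebraMap K F a)} = ∅ := by
    ext v
    refine ⟨fun hv => absurd hv (not_lt.mpr (hcon v)), fun hv => absurd hv (Set.notMem_empty v)⟩
  have h := FFSep.sum_ord_zeros (F := F) hxt a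
  rw [hS, finsum_mem_empty] at h
  have hpos : 0 < Module.finrank K⟮x⟯ F := Module.finrank_pos
  omega

/-- **Norm of a function regular over a set of points.** -/
theorem exists_norm_rat (hxt : Transcendental K x) {y : F} (hy0 : y ≠ 0) (D : Set K)
    (hreg : ∀ b' ∈ D, ∀ v : Place K F, 0 < v.ord (x - algebraMap K F b') →
      y ∈ v.toValuationSubring)
    (b : K) (hb : b ∈ D) (P : Place K F) (hPb : 0 < P.ord (x - algebraMap K F b))
    (hPy : 0 < P.ord y) :
    ∃ f g : K[X], (∀ b' ∈ D, g.eval b' ≠ 0) ∧ f.eval b = 0 ∧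
      algebraMap K⟮x⟯ F (Algebra.norm K⟮x⟯ y) * aeval x g = aeval x f := by
  classical
  set φ : F := algebraMap K⟮x⟯ F (Algebra.norm K⟮x⟯ y) with hφ
  have hφ0 : φ ≠ 0 := by
    rw [hφ, Ne, map_eq_zero, Algebra.norm_eq_zero_iff]
    exact hy0
  have hinj : Function.Injective (aeval (R := K) x) := transcendental_iff_injective.mp hxt
  have hne : ∀ p : K[X], p ≠ 0 → aeval x p ≠ 0 := fun p hp h0 =>
    hp (hinj (by rw [h0, map_zero]))
  -- a coprime representation
  obtain ⟨r, s, hrs⟩ := (mem_adjoin_simple_iff K (φ : F)).mp (Algebra.norm K⟮x⟯ y).2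
  have hs0 : s ≠ 0 := by
    rintro rfl
    rw [map_zero, div_zero] at hrs
    exact hφ0 hrs
  have hr0 : r ≠ 0 := by
    rintro rfl
    rw [map_zero, zero_div] at hrs
    exact hφ0 hrs
  set d := EuclideanDomain.gcd r s with hd
  have hd0 : d ≠ 0 := fun h0 => hs0 (EuclideanDomain.gcd_eq_zero_iff.mp h0).2
  obtain ⟨f, hf⟩ := EuclideanDomain.gcd_dvd_left r s
  obtain ⟨g, hg⟩ := EuclideanDomain.gcd_dvd_right r s
  rw [← hd] at hf hg
  have hg0 : g ≠ 0 := by
    rintro rfl
    rw [mul_zero] at hg
    exact hs0 hg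
  have hbez : f * EuclideanDomain.gcdA r s + g * EuclideanDomain.gcdB r s = 1 := by
    have h1 := EuclideanDomain.gcd_eq_gcd_ab r s
    rw [← hd] at h1
    have h2 : d * (f * EuclideanDomain.gcdA r s + g * EuclideanDomain.gcdB r s) = d * 1 := by
      rw [mul_one, mul_add, ← mul_assoc, ← mul_assoc, ← hf, ← hg]
      exact h1.symm
    exact mul_left_cancel₀ hd0 h2
  have hrel : φ * aeval x g = aeval x f := by
    rw [hrs, hf, hg, map_mul, map_mul, mul_div_mul_left _ _ (hne d hd0),
      div_mul_cancel₀ _ (hne g hg0)]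
  have hnocommon : ∀ a : K, g.eval a = 0 → f.eval a ≠ 0 := by
    intro a hga hfa
    have h1 := congrArg (fun p => p.eval a) hbez
    simp only [eval_add, eval_mul, hga, hfa, zero_mul, add_zero, eval_one] at h1
    exact zero_ne_one h1
  -- the fibrewise norm formula as finite sums
  have hn : 0 < (Module.finrank K⟮x⟯ F : ℤ) := by exact_mod_cast Module.finrank_pos
  have hsum : ∀ a : K,
      ∑ v ∈ (FFSep.finite_zeros (F := F) hxt a).toFinset, v.ord φ =
        (Module.finrank K⟮x⟯ F : ℤ) *
          ∑ v ∈ (FFSep.finite_zeros (F := F) hxt a).toFinset, v.ord y := by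
    intro a
    have h := FFSep.sum_ord_norm (F := F) hxt a hy0
    rw [finsum_mem_eq_finite_toFinset_sum _ (FFSep.finite_zeros (F := F) hxt a),
      finsum_mem_eq_finite_toFinset_sum _ (FFSep.finite_zeros (F := F) hxt a)] at h
    exact h
  have hmemS : ∀ (a : K) (v : Place K F),
      v ∈ (FFSep.finite_zeros (F := F) hxt a).toFinset ↔ 0 < v.ord (x - algebraMap K F a) := by
    intro a v
    rw [Set.Finite.mem_toFinset]
    rfl
  have hgD : ∀ b' ∈ D, g.eval b' ≠ 0 := by
    intro b' hb' hgb
    have hfb := hnocommon b' hgb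
    have hneg : ∀ v ∈ (FFSep.finite_zeros (F := F) hxt b').toFinset, v.ord φ < 0 := by
      intro v hv
      rw [hmemS] at hv
      obtain ⟨hf1, hf2⟩ := ord_aeval_eq_zero v hv f hfb
      have hg2 := ord_aeval_pos v hv g hgb (hne g hg0)
      have h1 := congrArg v.ord hrel
      rw [v.ord_mul hφ0 (hne g hg0), hf2] at h1
      omega
    have hnonempty : (FFSep.finite_zeros (F := F) hxt b').toFinset.Nonempty := by
      obtain ⟨v, hv⟩ := exists_zero (F := F) hxt b'
      exact ⟨v, (hmemS b' v).mpr hv⟩
    have h1 := Finset.sum_neg hneg hnonempty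
    have h2 : 0 ≤ ∑ v ∈ (FFSep.finite_zeros (F := F) hxt b').toFinset, v.ord y := by
      refine Finset.sum_nonneg fun v hv => ?_
      rw [hmemS] at hv
      exact (FFPlaces.mem_iff_ord_nonneg v hy0).mp (hreg b' hb' v hv)
    rw [hsum b'] at h1
    have h3 := mul_nonneg hn.le h2
    omega
  refine ⟨f, g, hgD, ?_, hrel⟩
  by_contra hfb
  have hgb := hgD b hb
  have hzero : ∀ v ∈ (FFSep.finite_zeros (F := F) hxt b).toFinset, v.ord φ = 0 := by
    intro v hv
    rw [hmemS] at hv
    obtain ⟨hf1, hf2⟩ := ord_aeval_eq_zero v hv f hfb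
    obtain ⟨hg1, hg2⟩ := ord_aeval_eq_zero v hv g hgb
    have h1 := congrArg v.ord hrel
    rw [v.ord_mul hφ0 hg1, hf2, hg2] at h1
    omega
  have h1 := Finset.sum_eq_zero hzero
  rw [hsum b] at h1
  have h2 : 0 < ∑ v ∈ (FFSep.finite_zeros (F := F) hxt b).toFinset, v.ord y := by
    have hPmem : P ∈ (FFSep.finite_zeros (F := F) hxt b).toFinset := (hmemS b P).mpr hPb
    have h3 : P.ord y ≤ ∑ v ∈ (FFSep.finite_zeros (F := F) hxt b).toFinset, v.ord y := by
      refine Finset.single_le_sum (f := fun v : Place K F => v.ord y) (fun v hv => ?_) hPmem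
      rw [hmemS] at hv
      exact (FFPlaces.mem_iff_ord_nonneg v hy0).mp (hreg b hb v hv)
    omega
  have h4 := mul_pos hn h2
  omega

end Norm

end Fermat.Agent.S37.RMap
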