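import Mathlib
import Fermat.Agent.S37.Plan2
import Fermat.Agent.S18.OrthoBasis
import Fermat.Agent.S18.ContentMain
import Fermat.Agent.S18.FibreCount
import Fermat.Agent.S18.CuspEmb

/-!
# S37 — [OrthoJ]: the `OrthoBasis.Setup` for `Q̄(j) ⊂ F_N` (helper16)

`A : ValuationSubring Q̄` with residue field `k` of characteristic `ℓ ∤ N`.

* `OV A N ℓ hℓ : ValuationSubring (FN N)`          — `F_N ∩ Ocal`;
* `redV A N ℓ hℓ : OV →+* Fk A N`                  — the reduction map, onto `F_{N,k}`;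
* `EJ N = Q̄⟮j⟯ ≤ F_N`, `kJ A N = k⟮j̄⟯ ≤ F_{N,k}`  — the two rational subfields;
* `OJ A N ℓ hℓ : ValuationSubring (EJ N)`          — `Q̄(j) ∩ Ocal` (the Gauss valuation ring);
* `redJ A N ℓ hℓ : OJ →+* kJ A N`                  — its reduction map;
* `setup : OrthoBasis.Setup OJ OV redJ redV`       — no defect: `[F_{N,k} : k(j̄)] = ψ(N) =
  [F_N : Q̄(j)]` (`S18/CuspEmb.finrank_fullC`, `S18/FibreCount.finrank_eq`);
* `norm_mem`, `redJ_norm` : the norm `N_{F_N/Q̄(j)}` maps `F_N ∩ Ocal` to `Q̄(j) ∩ Ocal` and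
  commutes with reduction; `coe_norm_mem_Ocal`, `red_norm_eq_one` : consumer forms in `Q̄((q))`.
-/

set_option autoImplicit false

noncomputable section

namespace Fermat.Agent.S37.OrthoJ

open ModularCurve AlgebraicCurve IntermediateField Polynomial
open Fermat.Agent.S24 Fermat.Agent.S18 Fermat.Agent.S18.Content Fermat.Agent.S18.Plan
open Fermat.Agent.S37.Plan2

set_option synthInstance.maxHeartbeats 400000
set_option maxHeartbeats 400000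

variable (A : ValuationSubring Kbar) (N : ℕ) [NeZero N] (ℓ : ℕ) [Fact ℓ.Prime]
  [CharP (kk A) ℓ]

/-- `F_N ∩ Ocal`, a valuation subring of `F_N`. -/
def OV (hℓ : ¬ ℓ ∣ N) : ValuationSubring (FN N) where
  carrier := {y | (y : Om) ∈ Ocal A}
  mul_mem' := fun {_ _} ha hb => (Ocal A).mul_mem ha hb
  one_mem' := (Ocal A).one_mem
  add_mem' := fun {_ _} ha hb => (Ocal A).add_mem ha hb
  zero_mem' := (Ocal A).zero_mem
  neg_mem' := fun {_} ha => (Ocal A).neg_mem ha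
  mem_or_inv_mem' := fun y => by
    rcases mem_Ocal_or_inv A N ℓ hℓ y.2 with h | ⟨h, -⟩
    · exact Or.inl h
    · exact Or.inr h

variable {A N ℓ} in
lemma mem_OV {hℓ : ¬ ℓ ∣ N} {y : FN N} : y ∈ OV A N ℓ hℓ ↔ (y : Om) ∈ Ocal A := Iff.rfl

/-- The inclusion `F_N ∩ Ocal → Ocal`. -/
def toOcal (hℓ : ¬ ℓ ∣ N) : OV A N ℓ hℓ →+* Ocal A :=
  RingHom.codRestrict ((algebraMap (FN N) Om).comp (OV A N ℓ hℓ).subtype) (Ocal A)
    (fun y => y.2)

variable {A N ℓ} in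
lemma coe_toOcal {hℓ : ¬ ℓ ∣ N} (y : OV A N ℓ hℓ) :
    ((toOcal A N ℓ hℓ y : Ocal A) : Om) = ((y : FN N) : Om) := rfl

variable {A N ℓ} in
lemma toOcal_mk {hℓ : ¬ ℓ ∣ N} (y : FN N) (hy : (y : Om) ∈ Ocal A) :
    toOcal A N ℓ hℓ ⟨y, hy⟩ = ⟨(y : Om), hy⟩ := rfl

/-- The reduction map `F_N ∩ Ocal → F_{N,k}`. -/
def redV (hℓ : ¬ ℓ ∣ N) : OV A N ℓ hℓ →+* Fk A N :=
  RingHom.codRestrict ((red A).comp (toOcal A N ℓ hℓ)) (Fk A N)
    (fun y => red_mem_fullC A N ℓ hℓ (y : FN N).2 y.2)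

variable {A N ℓ} in
lemma coe_redV {hℓ : ¬ ℓ ∣ N} (y : OV A N ℓ hℓ) :
    ((redV A N ℓ hℓ y : Fk A N) : Omk A) = red A (toOcal A N ℓ hℓ y) := rfl

/-- `redV` is onto `F_{N,k}`. -/
theorem redV_surjective (hℓ : ¬ ℓ ∣ N) : Function.Surjective (redV A N ℓ hℓ) := by
  intro z
  obtain ⟨y, hy, hyO, h⟩ := exists_red_eq A N z.2
  refine ⟨⟨⟨y, hy⟩, hyO⟩, Subtype.ext ?_⟩
  rw [coe_redV]
  exact h

/-- `Q̄(j)` inside `F_N`. -/
abbrev EJ : IntermediateField Kbar (FN N) := Kbar⟮jBar N⟯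

/-- `k(j̄)` inside `F_{N,k}`. -/
abbrev kJ : IntermediateField (kk A) (Fk A N) := (kk A)⟮jkEl A N⟯

/-- `Q̄(j) ∩ Ocal`: the Gauss valuation ring of `Q̄(j)`. -/
def OJ (hℓ : ¬ ℓ ∣ N) : ValuationSubring ↥(EJ N) :=
  (OV A N ℓ hℓ).comap (algebraMap ↥(EJ N) (FN N))

variable {A N ℓ} in
lemma mem_OJ {hℓ : ¬ ℓ ∣ N} {e : ↥(EJ N)} :
    e ∈ OJ A N ℓ hℓ ↔ (((e : FN N)) : Om) ∈ Ocal A := Iff.rfl

/-- The inclusion `Q̄(j) ∩ Ocal → F_N ∩ Ocal`. -/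
def inclJ (hℓ : ¬ ℓ ∣ N) : OJ A N ℓ hℓ →+* OV A N ℓ hℓ :=
  RingHom.codRestrict ((algebraMap ↥(EJ N) (FN N)).comp (OJ A N ℓ hℓ).subtype) (OV A N ℓ hℓ)
    (fun e => e.2)

variable {A N ℓ} in
lemma coe_inclJ {hℓ : ¬ ℓ ∣ N} (e : OJ A N ℓ hℓ) :
    ((inclJ A N ℓ hℓ e : OV A N ℓ hℓ) : FN N) = ((e : ↥(EJ N)) : FN N) := rfl

lemma coe_jBar : ((jBar N : FN N) : Om) = iota A (jqModC A) := by
  rw [iota_jA]
  rfl

lemma coe_aeval_jBar (P : Kbar[X]) :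
    ((aeval (jBar N) P : FN N) : Om) = aeval (iota A (jqModC A)) P := by
  have h := aeval_algHom_apply (modularFunctionFieldBar N).val (jBar N) P
  rw [← coe_jBar A N]
  exact h.symm

omit [NeZero N] in
lemma coe_aeval_jkEl (P : (kk A)[X]) :
    ((aeval (jkEl A N) P : Fk A N) : Omk A) = aeval (jqModC (kk A)) P := by
  have h := aeval_algHom_apply (Fk A N).val (jkEl A N) P
  exact h.symm

/-- The reduction of an element of `Q̄(j) ∩ Ocal` lies in `k(j̄)`. -/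
theorem redV_mem_kJ (hℓ : ¬ ℓ ∣ N) (e : OJ A N ℓ hℓ) :
    redV A N ℓ hℓ (inclJ A N ℓ hℓ e) ∈ kJ A N := by
  obtain ⟨r, s, hrs⟩ := (mem_adjoin_simple_iff Kbar ((e : ↥(EJ N)) : FN N)).mp (e : ↥(EJ N)).2
  have hzero : ((e : ↥(EJ N)) : FN N) = 0 → redV A N ℓ hℓ (inclJ A N ℓ hℓ e) ∈ kJ A N := by
    intro h0
    have : inclJ A N ℓ hℓ e = 0 := Subtype.ext h0
    rw [this, map_zero]
    exact zero_mem _
  by_cases hr0 : r = 0
  · exact hzero (by rw [hrs, hr0, map_zero, zero_div])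
  by_cases hs0 : s = 0
  · exact hzero (by rw [hrs, hs0, map_zero, div_zero])
  obtain ⟨c, R₀, hc, hR₀, hr⟩ := exists_primitive A r hr0
  obtain ⟨d, S₀, hd, hS₀, hs⟩ := exists_primitive A s hs0
  have htr := transcendental_rho_jA A
  have hu : rho A (evalA A (jqModC A) R₀) ≠ 0 := by
    rw [rho_evalA]
    intro h0
    exact htr ⟨_, hR₀, h0⟩
  have hw : rho A (evalA A (jqModC A) S₀) ≠ 0 := by
    rw [rho_evalA]
    intro h0
    exact htr ⟨_, hS₀, h0⟩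
  have hw0 : iota A (evalA A (jqModC A) S₀) ≠ 0 := rho_ne_zero_imp A _ hw
  have hCd : (HahnSeries.C d : Om) ≠ 0 := by
    intro h
    exact hd (HahnSeries.C_injective (by rw [h, map_zero]))
  -- the Gauss form of `e`
  have h1 : ((((e : ↥(EJ N)) : FN N)) : Om) =
      aeval (iota A (jqModC A)) r / aeval (iota A (jqModC A)) s := by
    rw [← coe_aeval_jBar A N, ← coe_aeval_jBar A N, hrs]
    rfl
  have hr' : aeval (iota A (jqModC A)) r =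
      HahnSeries.C c * iota A (evalA A (jqModC A) R₀) := by
    rw [hr, map_mul, aeval_C, algebraMap_LS_eq_C, ← iota_evalA]
  have hs' : aeval (iota A (jqModC A)) s =
      HahnSeries.C d * iota A (evalA A (jqModC A) S₀) := by
    rw [hs, map_mul, aeval_C, algebraMap_LS_eq_C, ← iota_evalA]
  have hform : ((((e : ↥(EJ N)) : FN N)) : Om) * iota A (evalA A (jqModC A) S₀) =
      HahnSeries.C (c / d) * iota A (evalA A (jqModC A) R₀) := by
    rw [h1, hr', hs', map_div₀]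
    field_simp
  have hyO : ((((e : ↥(EJ N)) : FN N)) : Om) ∈ Ocal A := e.2
  have hcA : c / d ∈ A := (mem_Ocal_iff_of_form hu hw hform).mp hyO
  have hred := red_of_form hw hform hcA hyO
  rw [rho_evalA, rho_evalA, rho_jA] at hred
  -- the same element, written inside `k(j̄)`
  have hkey : redV A N ℓ hℓ (inclJ A N ℓ hℓ e) =
      algebraMap (kk A) (Fk A N) (IsLocalRing.residue A ⟨c / d, hcA⟩) *
        (aeval (jkEl A N) (R₀.map (IsLocalRing.residue A)) /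
          aeval (jkEl A N) (S₀.map (IsLocalRing.residue A))) := by
    apply Subtype.ext
    rw [coe_redV]
    refine hred.trans ?_
    rw [MulMemClass.coe_mul, IntermediateField.coe_div, coe_aeval_jkEl, coe_aeval_jkEl,
      ← algebraMap_LS_eq_C]
    rfl
  rw [hkey]
  exact mul_mem (IntermediateField.algebraMap_mem _ _)
    ((mem_adjoin_simple_iff (kk A) _).mpr ⟨_, _, rfl⟩)

/-- The reduction map `Q̄(j) ∩ Ocal → k(j̄)`. -/
def redJ (hℓ : ¬ ℓ ∣ N) : OJ A N ℓ hℓ →+* ↥(kJ A N) :=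
  RingHom.codRestrict ((redV A N ℓ hℓ).comp (inclJ A N ℓ hℓ)) (kJ A N)
    (redV_mem_kJ A N ℓ hℓ)

variable {A N ℓ} in
lemma coe_redJ {hℓ : ¬ ℓ ∣ N} (e : OJ A N ℓ hℓ) :
    ((redJ A N ℓ hℓ e : ↥(kJ A N)) : Fk A N) = redV A N ℓ hℓ (inclJ A N ℓ hℓ e) := rfl

instance finiteDimensional_EJ : FiniteDimensional ↥(EJ N) (FN N) :=
  FibreCount.finiteDimensional N

/-- A non-unit of `Q̄(j) ∩ Ocal` has zero reduction. -/
theorem redJ_eq_zero_of_not_isUnit (hℓ : ¬ ℓ ∣ N) (x : OJ A N ℓ hℓ) (hx : ¬ IsUnit x) :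
    redJ A N ℓ hℓ x = 0 := by
  by_contra hne
  apply hx
  have h1 : red A (toOcal A N ℓ hℓ (inclJ A N ℓ hℓ x)) ≠ 0 := by
    intro h0
    apply hne
    apply Subtype.ext
    apply Subtype.ext
    rw [coe_redJ, coe_redV, h0]
    rfl
  have hinv := inv_mem_Ocal A _ h1
  have hx0 : (x : ↥(EJ N)) ≠ 0 := by
    intro h0
    apply h1
    have : x = 0 := Subtype.ext h0
    rw [this, map_zero, map_zero, map_zero]
  have hmem : (x : ↥(EJ N))⁻¹ ∈ OJ A N ℓ hℓ := hinv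
  exact ⟨⟨x, ⟨(x : ↥(EJ N))⁻¹, hmem⟩, Subtype.ext (mul_inv_cancel₀ hx0),
    Subtype.ext (inv_mul_cancel₀ hx0)⟩, rfl⟩

/-- **[OrthoJ]** the no-defect setup for `Q̄(j) ⊂ F_N`. -/
theorem setup (hℓ : ¬ ℓ ∣ N) :
    OrthoBasis.Setup (OJ A N ℓ hℓ) (OV A N ℓ hℓ) (redJ A N ℓ hℓ) (redV A N ℓ hℓ) where
  incl x := x.2
  red_nonunit := redJ_eq_zero_of_not_isUnit A N ℓ hℓ
  compat x := rfl
  surj' := redV_surjective A N ℓ hℓ
  finrank_pos := by
    rw [FibreCount.finrank_eq]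
    exact FibreCount.dedekindPsi_pos N
  finrank_eq := by
    rw [FibreCount.finrank_eq]
    exact CuspEmb.finrank_fullC (kk A) N ℓ hℓ

/-- `F_{N,k}` is finite over `k(j̄)`. -/
theorem finiteDimensional_kJ (hℓ : ¬ ℓ ∣ N) : FiniteDimensional ↥(kJ A N) (Fk A N) :=
  Module.finite_of_finrank_pos
    ((setup A N ℓ hℓ).finrank_eq ▸ (setup A N ℓ hℓ).finrank_pos)

/-- The norm `N_{F_N/Q̄(j)}` of an element of `F_N ∩ Ocal` lies in `Q̄(j) ∩ Ocal`, and its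
reduction is the norm `N_{F_{N,k}/k(j̄)}` of the reduction. -/
theorem exists_norm (hℓ : ¬ ℓ ∣ N) (g : OV A N ℓ hℓ) :
    ∃ h : Algebra.norm ↥(EJ N) (g : FN N) ∈ OJ A N ℓ hℓ,
      redJ A N ℓ hℓ ⟨_, h⟩ = Algebra.norm ↥(kJ A N) (redV A N ℓ hℓ g) := by
  have S := setup A N ℓ hℓ
  have := finiteDimensional_kJ A N ℓ hℓ
  obtain ⟨P, -, -, h1, h2⟩ := S.exists_charpoly g
  have e1 : Algebra.norm ↥(EJ N) (g : FN N) =
      (((-1) ^ Module.finrank ↥(EJ N) (FN N) * P.coeff 0 : OJ A N ℓ hℓ) : ↥(EJ N)) := by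
    rw [Algebra.norm_apply, LinearMap.det_eq_sign_charpoly_coeff, h1, coeff_map]
    rfl
  have hmem : Algebra.norm ↥(EJ N) (g : FN N) ∈ OJ A N ℓ hℓ := by
    rw [e1]
    exact Subtype.coe_prop _
  refine ⟨hmem, ?_⟩
  have e2 : (⟨_, hmem⟩ : OJ A N ℓ hℓ) = (-1) ^ Module.finrank ↥(EJ N) (FN N) * P.coeff 0 :=
    Subtype.ext e1
  rw [e2, map_mul, map_pow, map_neg, map_one, Algebra.norm_apply,
    LinearMap.det_eq_sign_charpoly_coeff, h2, coeff_map, S.finrank_eq]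

/-- Consumer form in `Q̄((q))`: the norm of an element of `F_N ∩ Ocal` lies in `Ocal`. -/
theorem coe_norm_mem_Ocal (hℓ : ¬ ℓ ∣ N) (y : FN N) (hy : (y : Om) ∈ Ocal A) :
    (((Algebra.norm ↥(EJ N) y : ↥(EJ N)) : FN N) : Om) ∈ Ocal A :=
  (exists_norm A N ℓ hℓ ⟨y, hy⟩).1

/-- Consumer form in `Q̄((q))`: if `red y = 1` then `red (N y) = 1`. -/
theorem red_norm_eq_one (hℓ : ¬ ℓ ∣ N) (y : FN N) (hy : (y : Om) ∈ Ocal A)
    (hred : red A ⟨(y : Om), hy⟩ = 1) :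
    red A ⟨_, coe_norm_mem_Ocal A N ℓ hℓ y hy⟩ = 1 := by
  obtain ⟨h, hn⟩ := exists_norm A N ℓ hℓ ⟨y, hy⟩
  have h1 : redV A N ℓ hℓ ⟨y, hy⟩ = 1 := by
    apply Subtype.ext
    rw [coe_redV, toOcal_mk, hred]
    rfl
  rw [h1, map_one] at hn
  have h2 : ((((redJ A N ℓ hℓ ⟨_, h⟩ : ↥(kJ A N)) : Fk A N)) : Omk A) = 1 := by
    rw [hn]
    rfl
  exact h2

end Fermat.Agent.S37.OrthoJ

end
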