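import Mathlib
import Fermat.Agent.S18.ContentBase

/-!
# S37 [RMAP] — the rational maximum principle (helper16)

`K` an algebraically closed field, `A : ValuationSubring K`, `k` its residue field,
`Ocal A ⊂ K((q))` the content ring with reduction `red A : Ocal A → k((q))` (`S18/ContentBase`).

Let `x ∈ Ocal` with `red x` transcendental over `k` ("a coordinate"), `b ∈ A`, and let
`φ = f(x) / g(x)` with `f, g ∈ K[X]`, where `g` has no root in the residue disc `b + 𝔪_A`.
If `φ ∈ Ocal` and `red φ = 1`, then `f(b) ≠ 0` (`rat_max`): a rational function of sup-norm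
one on the disc, congruent to `1`, has no zero in the disc.

* `exists_normal_form` : `g = c · G` with `G ∈ A[X]`, `G(b) = 1`;
* `exists_normal_form_fin` : if `g` has no root in `A` at all, `g = c · G` with `G ∈ A[X]`,
  `Ḡ = 1`;
* `rat_max` : the statement above, in contradiction form.
-/

set_option autoImplicit false

namespace Fermat.Agent.S37.RMap

open Polynomial Fermat.Agent.S18.Content

variable {K : Type*} [Field K] (A : ValuationSubring K)

/-- An element of `K` outside `𝔪_A` has its inverse in `A`. -/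
lemma inv_mem_of_forall_ne {z : K}
    (hz : ∀ m : A, m ∈ IsLocalRing.maximalIdeal A → z ≠ (m : K)) : z⁻¹ ∈ A := by
  rcases A.mem_or_inv_mem z with h | h
  · have hu : IsUnit (⟨z, h⟩ : A) := by
      by_contra hnu
      exact hz ⟨z, h⟩ ((IsLocalRing.mem_maximalIdeal _).mpr hnu) rfl
    obtain ⟨u, hu⟩ := hu
    have h1 : z * (((u⁻¹ : Aˣ) : A) : K) = 1 := by
      have h2 := congrArg (Subtype.val) (Units.mul_inv u)
      rw [Subring.coe_mul, hu] at h2
      exact h2
    rw [← eq_inv_of_mul_eq_one_right h1]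
    exact (((u⁻¹ : Aˣ) : A)).2
  · exact h

/-- A product of linear factors `X - r` with all `r` outside the disc `b + 𝔪_A` is a constant
times a polynomial over `A` taking the value `1` at `b`. -/
lemma exists_normal_form_prod (b : A) (s : Multiset K)
    (hs : ∀ r ∈ s, ∀ m : A, m ∈ IsLocalRing.maximalIdeal A → r ≠ (b : K) + m) :
    ∃ (c : K) (G : A[X]), c ≠ 0 ∧
      (s.map (fun r => X - C r)).prod = C c * G.map A.subtype ∧ G.eval b = 1 := by
  induction s using Multiset.induction_on with
  | empty => exact ⟨1, 1, one_ne_zero, by simp, by simp⟩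
  | cons r s ih =>
    obtain ⟨c, G, hc, hG, hGb⟩ := ih (fun r' hr' => hs r' (Multiset.mem_cons_of_mem hr'))
    have hr := hs r (Multiset.mem_cons_self r s)
    have hz : ∀ m : A, m ∈ IsLocalRing.maximalIdeal A → r - (b : K) ≠ (m : K) :=
      fun m hm h => hr m hm (by rw [← h]; ring)
    have hinv := inv_mem_of_forall_ne A hz
    have hz0 : r - (b : K) ≠ 0 := fun h => hz 0 (zero_mem _) (by simpa using h)
    refine ⟨-(r - (b : K)) * c, (1 - C ⟨(r - (b : K))⁻¹, hinv⟩ * (X - C b)) * G, ?_, ?_, ?_⟩
    · exact mul_ne_zero (neg_ne_zero.mpr hz0) hc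
    · rw [Multiset.map_cons, Multiset.prod_cons, hG]
      have key : (X - C r : K[X]) =
          C (-(r - (b : K))) * (1 - C (r - (b : K))⁻¹ * (X - C (b : K))) := by
        have h1 : (C (-(r - (b : K))) * (C (r - (b : K))⁻¹ : K[X])) = C (-1) := by
          rw [← C_mul, neg_mul, mul_inv_cancel₀ hz0]
        rw [mul_sub, mul_one, ← mul_assoc, h1]
        simp only [C_neg, C_sub, C_1]
        ring
      rw [key]
      simp only [Polynomial.map_mul, Polynomial.map_sub, Polynomial.map_one, Polynomial.map_C,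
        Polynomial.map_X, C_mul]
      have h2 : A.subtype ⟨(r - (b : K))⁻¹, hinv⟩ = (r - (b : K))⁻¹ := rfl
      have h3 : A.subtype b = (b : K) := rfl
      rw [h2, h3]
      ring
    · rw [eval_mul, hGb, mul_one]
      simp only [eval_sub, eval_one, eval_mul, eval_X, eval_C, sub_self, mul_zero, sub_zero]

/-- **Normal form.** A polynomial over an algebraically closed field without roots in the residue
disc `b + 𝔪_A` is a nonzero constant times a polynomial over `A` with value `1` at `b`. -/
lemma exists_normal_form [IsAlgClosed K] (b : A) (g : K[X])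
    (hg : ∀ m : A, m ∈ IsLocalRing.maximalIdeal A → g.eval ((b : K) + m) ≠ 0) :
    ∃ (c : K) (G : A[X]), c ≠ 0 ∧ g = C c * G.map A.subtype ∧ G.eval b = 1 := by
  have hg0 : g ≠ 0 := by
    rintro rfl
    exact hg 0 (zero_mem _) (by simp)
  obtain ⟨c, G, hc, hG, hGb⟩ := exists_normal_form_prod A b g.roots
    (fun r hr m hm h => hg m hm (by rw [← h]; exact (mem_roots hg0).mp hr))
  refine ⟨g.leadingCoeff * c, G, mul_ne_zero (leadingCoeff_ne_zero.mpr hg0) hc, ?_, hGb⟩
  conv_lhs => rw [(IsAlgClosed.splits g).eq_prod_roots, hG]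
  rw [C_mul, mul_assoc]

/-- An element of `K` outside `A` has its inverse in `𝔪_A`. -/
lemma inv_mem_maximalIdeal_of_not_mem {r : K} (hr : r ∉ A) :
    ∃ h : r⁻¹ ∈ A, (⟨r⁻¹, h⟩ : A) ∈ IsLocalRing.maximalIdeal A := by
  have h : r⁻¹ ∈ A := (A.mem_or_inv_mem r).resolve_left hr
  refine ⟨h, ?_⟩
  rw [IsLocalRing.mem_maximalIdeal, mem_nonunits_iff]
  rintro ⟨u, hu⟩
  apply hr
  have h1 : r⁻¹ * (((u⁻¹ : Aˣ) : A) : K) = 1 := by
    have h2 := congrArg (Subtype.val) (Units.mul_inv u)
    rw [Subring.coe_mul, hu] at h2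
    exact h2
  have h3 : r = (((u⁻¹ : Aˣ) : A) : K) := by
    have hr0 : r ≠ 0 := fun h0 => hr (h0 ▸ A.zero_mem)
    field_simp at h1
    exact h1.symm
  rw [h3]
  exact (((u⁻¹ : Aˣ) : A)).2

/-- A product of linear factors `X - r` with all `r` outside `A` is a constant times a
polynomial over `A` with reduction `1`. -/
lemma exists_normal_form_prod_fin (s : Multiset K) (hs : ∀ r ∈ s, r ∉ A) :
    ∃ (c : K) (G : A[X]), c ≠ 0 ∧
      (s.map (fun r => X - C r)).prod = C c * G.map A.subtype ∧
      G.map (IsLocalRing.residue A) = 1 := by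
  induction s using Multiset.induction_on with
  | empty => exact ⟨1, 1, one_ne_zero, by simp, by simp⟩
  | cons r s ih =>
    obtain ⟨c, G, hc, hG, hGb⟩ := ih (fun r' hr' => hs r' (Multiset.mem_cons_of_mem hr'))
    have hr := hs r (Multiset.mem_cons_self r s)
    obtain ⟨hinv, hmax⟩ := inv_mem_maximalIdeal_of_not_mem A hr
    have hr0 : r ≠ 0 := fun h0 => hr (h0 ▸ A.zero_mem)
    refine ⟨-r * c, (1 - C ⟨r⁻¹, hinv⟩ * X) * G, ?_, ?_, ?_⟩
    · exact mul_ne_zero (neg_ne_zero.mpr hr0) hc
    · rw [Multiset.map_cons, Multiset.prod_cons, hG]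
      have key : (X - C r : K[X]) = C (-r) * (1 - C r⁻¹ * X) := by
        have h1 : (C (-r) * (C r⁻¹ : K[X])) = C (-1) := by
          rw [← C_mul, neg_mul, mul_inv_cancel₀ hr0]
        rw [mul_sub, mul_one, ← mul_assoc, h1]
        simp only [C_neg, C_1]
        ring
      rw [key]
      simp only [Polynomial.map_mul, Polynomial.map_sub, Polynomial.map_one, Polynomial.map_C,
        Polynomial.map_X, C_mul]
      have h2 : A.subtype ⟨r⁻¹, hinv⟩ = r⁻¹ := rfl
      rw [h2]
      ring
    · rw [Polynomial.map_mul, hGb, mul_one, Polynomial.map_sub, Polynomial.map_one,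
        Polynomial.map_mul, Polynomial.map_C, Polynomial.map_X,
        (IsLocalRing.residue_eq_zero_iff _).mpr hmax, C_0, zero_mul, sub_zero]

/-- **Normal form, finite chart.** A polynomial over an algebraically closed field without roots
in `A` is a nonzero constant times a polynomial over `A` with reduction `1`. -/
lemma exists_normal_form_fin [IsAlgClosed K] (g : K[X]) (hg : ∀ a : A, g.eval (a : K) ≠ 0) :
    ∃ (c : K) (G : A[X]), c ≠ 0 ∧ g = C c * G.map A.subtype ∧
      G.map (IsLocalRing.residue A) = 1 := by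
  have hg0 : g ≠ 0 := by
    rintro rfl
    exact hg 0 (by simp)
  obtain ⟨c, G, hc, hG, hGb⟩ := exists_normal_form_prod_fin A g.roots
    (fun r hr hrA => hg ⟨r, hrA⟩ ((mem_roots hg0).mp hr))
  refine ⟨g.leadingCoeff * c, G, mul_ne_zero (leadingCoeff_ne_zero.mpr hg0) hc, ?_, hGb⟩
  conv_lhs => rw [(IsAlgClosed.splits g).eq_prod_roots, hG]
  rw [C_mul, mul_assoc]

/-- Value at `b̄` of the reduction of a polynomial over `A`. -/
lemma eval_map_residue (G : A[X]) (b : A) :
    (G.map (IsLocalRing.residue A)).eval (IsLocalRing.residue A b) =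
      IsLocalRing.residue A (G.eval b) := by
  rw [eval_map, eval₂_at_apply]

/-- Value at `b` of a polynomial over `A`, computed in `K`. -/
lemma eval_map_subtype (G : A[X]) (b : A) :
    (G.map A.subtype).eval (b : K) = ((G.eval b : A) : K) := by
  have : (b : K) = A.subtype b := rfl
  rw [this, eval_map, eval₂_at_apply]
  rfl

/-- **Rational maximum principle.** Let `x ∈ Ocal` have transcendental reduction, `b ∈ A`,
`g ∈ K[X]` without roots in `b + 𝔪_A` and `f ∈ K[X]` with `f(b) = 0`.  Then `f(x) / g(x)` is not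
an element of `Ocal` with reduction `1`. -/
theorem rat_max [IsAlgClosed K] (x : Ocal A)
    (htr : Transcendental (IsLocalRing.ResidueField A) (red A x)) (b : A) (f g : K[X])
    (hg : ∀ m : A, m ∈ IsLocalRing.maximalIdeal A → g.eval ((b : K) + m) ≠ 0)
    (hfb : f.eval (b : K) = 0) (φ : Ocal A)
    (hφ : (φ : LaurentSeries K) * aeval (x : LaurentSeries K) g =
      aeval (x : LaurentSeries K) f)
    (hred : red A φ = 1) : False := by
  obtain ⟨c', G, hc', hG, hGb⟩ := exists_normal_form A b g hg
  have hinj : Function.Injective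
      (aeval (R := IsLocalRing.ResidueField A) (red A x)) :=
    transcendental_iff_injective.mp htr
  have hne : ∀ Q : (IsLocalRing.ResidueField A)[X], Q ≠ 0 → aeval (red A x) Q ≠ 0 := by
    intro Q hQ h0
    exact hQ (hinj (by rw [h0, map_zero]))
  have hGbar : G.map (IsLocalRing.residue A) ≠ 0 := by
    intro h0
    have h1 := eval_map_residue A G b
    rw [h0, eval_zero, hGb, map_one] at h1
    exact zero_ne_one h1
  have hGx : red A (evalO A x G) ≠ 0 := by
    rw [red_evalO]
    exact hne _ hGbar
  have hGx0 : ((evalO A x G : Ocal A) : LaurentSeries K) ≠ 0 := ne_zero_of_red_ne_zero A _ hGx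
  have hCc' : (HahnSeries.C c' : LaurentSeries K) ≠ 0 := by
    intro h
    exact hc' (HahnSeries.C_injective (by rw [h, map_zero]))
  have hgx : aeval (x : LaurentSeries K) g =
      HahnSeries.C c' * ((evalO A x G : Ocal A) : LaurentSeries K) := by
    rw [coe_evalO, hG, map_mul, aeval_C, algebraMap_LS_eq_C]
  by_cases hf0 : f = 0
  · rw [hf0, map_zero, hgx] at hφ
    have h1 : (φ : LaurentSeries K) = 0 := by
      rcases mul_eq_zero.mp hφ with h | h
      · exact h
      · exact absurd h (mul_ne_zero hCc' hGx0)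
    have h2 : φ = 0 := Subtype.ext h1
    rw [h2, map_zero] at hred
    exact zero_ne_one hred
  obtain ⟨c, F₀, hc, hF₀, hfF⟩ := exists_primitive A f hf0
  have hF₀b : F₀.eval b = 0 := by
    rw [hfF, eval_mul, eval_C, eval_map_subtype] at hfb
    rcases mul_eq_zero.mp hfb with h | h
    · exact absurd h hc
    · exact Subtype.ext h
  have hfx : aeval (x : LaurentSeries K) f =
      HahnSeries.C c * ((evalO A x F₀ : Ocal A) : LaurentSeries K) := by
    rw [coe_evalO, hfF, map_mul, aeval_C, algebraMap_LS_eq_C]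
  have hFx : red A (evalO A x F₀) ≠ 0 := by
    rw [red_evalO]
    exact hne _ hF₀
  -- the unit `e = F₀(x) / G(x)`
  set Ginv : Ocal A := ⟨((evalO A x G : Ocal A) : LaurentSeries K)⁻¹, inv_mem_Ocal A _ hGx⟩
    with hGinv
  have hredGinv : red A Ginv = (red A (evalO A x G))⁻¹ := red_inv A _ hGx
  set e : Ocal A := evalO A x F₀ * Ginv with he
  have hrede : red A e = red A (evalO A x F₀) * (red A (evalO A x G))⁻¹ := by
    rw [he, map_mul, hredGinv]
  have hrede0 : red A e ≠ 0 := by
    rw [hrede]
    exact mul_ne_zero hFx (inv_ne_zero hGx)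
  have hφe : (φ : LaurentSeries K) = HahnSeries.C (c / c') * (e : LaurentSeries K) := by
    rw [hgx, hfx] at hφ
    have h1 : (e : LaurentSeries K) =
        ((evalO A x F₀ : Ocal A) : LaurentSeries K) *
          ((evalO A x G : Ocal A) : LaurentSeries K)⁻¹ := rfl
    rw [h1, div_eq_mul_inv, map_mul, map_inv₀]
    field_simp
    rw [← hφ]
    ring
  have hmem : HahnSeries.C (c / c') * (e : LaurentSeries K) ∈ Ocal A := by
    rw [← hφe]; exact φ.2
  have hu : c / c' ∈ A := (C_mul_mem_Ocal_iff A (c / c') e hrede0).mp hmem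
  have hred2 : red A φ = HahnSeries.C (IsLocalRing.residue A ⟨c / c', hu⟩) * red A e := by
    rw [← red_C_mul A hu e hmem]
    exact red_congr A hφe _ _
  rw [hred, hrede, red_evalO, red_evalO] at hred2
  -- `Ḡ(x̄) = ū · F̄₀(x̄)`
  have h3 : aeval (red A x) (G.map (IsLocalRing.residue A)) =
      aeval (red A x) (C (IsLocalRing.residue A ⟨c / c', hu⟩) *
        F₀.map (IsLocalRing.residue A)) := by
    rw [map_mul, aeval_C, algebraMap_LS_eq_C]
    have hG0 := hne _ hGbar
    field_simp at hred2
    rw [hred2]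
  have h4 := hinj h3
  have h5 := congrArg (fun Q => Q.eval (IsLocalRing.residue A b)) h4
  simp only [eval_mul, eval_C, eval_map_residue, hGb, hF₀b, map_one, map_zero, mul_zero] at h5
  exact one_ne_zero h5

end Fermat.Agent.S37.RMap
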