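import Mathlib
import Fermat.Agent.S37.Plan2b
import Fermat.Agent.S37.RMap.OrthoJ
import Fermat.Agent.S37.RMap.Rat
import Fermat.Agent.S37.RMap.NormRat
import Fermat.Agent.S18.Char0

/-!
# S37 [RMAP] — the maximum principle on the chart rings (helper16)

`A : ValuationSubring Q̄` over `ℓ ∤ N`.

* `red_ne_one` **(MAX')** : a chart element at `P` which vanishes at `P` does not reduce to `1`;
* `chartVal : Plan2.ChartVal A N` **(C1)** : the value of a chart element at a place of its chart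
  lies in `A`;
* `red_sub_mem` : for a chart element `y` at `P` with value `a ∈ A` at `P`, the element
  `y - a` is again a chart element at `P` vanishing at `P`.

Proof of (MAX'): the norm `φ = N_{F_N/Q̄(j)} y` lies in `Ocal` with reduction `1`
(`OrthoJ.red_norm_eq_one`), is `f(x)/g(x)` with `g` without roots in the residue disc of `x(P)`
and `f(x(P)) = 0` (`exists_norm_rat`; `x = j` resp. `x = 1/j`), which contradicts the rational
maximum principle `rat_max`.
-/

set_option autoImplicit false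

noncomputable section

namespace Fermat.Agent.S37.RMap

open ModularCurve AlgebraicCurve IntermediateField Polynomial Fermat.Agent.Lib
open Fermat.Agent.S24 Fermat.Agent.S18 Fermat.Agent.S18.Content Fermat.Agent.S18.Plan
open Fermat.Agent.S37.Plan2 Fermat.Agent.S37

set_option synthInstance.maxHeartbeats 400000
set_option maxHeartbeats 400000

section Generic

variable {K F : Type*} [Field K] [Field F] [Algebra K F]

/-- Positive order is membership in the maximal ideal. -/
lemma ord_pos_iff_mem_nonunits (v : Place K F) {f : F} (hf : f ≠ 0) :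
    0 < v.ord f ↔ f ∈ v.toValuationSubring.nonunits := by
  rw [FFPlaces.ord_pos_iff v hf, ValuationSubring.mem_nonunits_iff_or]
  constructor
  · rintro ⟨-, h⟩
    exact Or.inr h
  · rintro (h | h)
    · exact absurd h hf
    · exact ⟨(v.toValuationSubring.mem_or_inv_mem f).resolve_right h, h⟩

/-- Nonzero constants are units at every place. -/
lemma algebraMap_notMem_nonunits (v : Place K F) {c : K} (hc : c ≠ 0) :
    algebraMap K F c ∉ v.toValuationSubring.nonunits := by
  rw [ValuationSubring.mem_nonunits_iff_or]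
  rintro (h | h)
  · exact hc ((map_eq_zero (algebraMap K F)).mp h)
  · apply h
    rw [← map_inv₀]
    exact v.algebraMap_mem' _

/-- A constant in the maximal ideal of a place is zero. -/
lemma eq_zero_of_algebraMap_mem_nonunits (v : Place K F) {c : K}
    (h : algebraMap K F c ∈ v.toValuationSubring.nonunits) : c = 0 := by
  by_contra hc
  exact algebraMap_notMem_nonunits v hc h

end Generic

variable (A : ValuationSubring Kbar) (N : ℕ) [NeZero N] (ℓ : ℕ) [Fact ℓ.Prime]
  [CharP (kk A) ℓ]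

/-- **Core of (MAX').** `x` a coordinate of the `j`-line (`Q̄(x) = Q̄(j)`) lying in `Ocal` with
transcendental reduction, `P` a place over `x = b`, `b ∈ A`; `y ∈ F_N ∩ Ocal` with `red y = 1`,
regular at all places over the residue disc `b + 𝔪_A`.  Then `y` does not vanish at `P`. -/
theorem max_core (hℓ : ¬ ℓ ∣ N) (x : FN N) (hxt : Transcendental Kbar x)
    [FiniteDimensional Kbar⟮x⟯ (FN N)] [Algebra.IsSeparable Kbar⟮x⟯ (FN N)]
    (hE : Kbar⟮x⟯ = OrthoJ.EJ N) (hxO : (x : Om) ∈ Ocal A)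
    (htr : Transcendental (kk A) (red A ⟨(x : Om), hxO⟩)) (b : A) (P : Place Kbar (FN N))
    (hPb : 0 < P.ord (x - algebraMap Kbar (FN N) (b : Kbar)))
    (y : FN N) (hy : (y : Om) ∈ Ocal A) (hred : red A ⟨(y : Om), hy⟩ = 1)
    (hreg : ∀ m : A, m ∈ IsLocalRing.maximalIdeal A → ∀ v : Place Kbar (FN N),
      0 < v.ord (x - algebraMap Kbar (FN N) ((b : Kbar) + (m : Kbar))) →
        y ∈ v.toValuationSubring)
    (hPy : 0 < P.ord y) : False := by
  have hy0 : y ≠ 0 := by
    rintro rfl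
    rw [Place.ord_zero] at hPy
    exact lt_irrefl _ hPy
  obtain ⟨f, g, hg, hfb, hrel⟩ := exists_norm_rat hxt hy0
    {b' : Kbar | ∃ m : A, m ∈ IsLocalRing.maximalIdeal A ∧ b' = (b : Kbar) + (m : Kbar)}
    (by
      rintro b' ⟨m, hm, rfl⟩ v hv
      exact hreg m hm v hv)
    (b : Kbar) ⟨0, zero_mem _, by simp⟩ P hPb hPy
  rw [FFSep.algebraMap_norm_of_eq hE y] at hrel
  have hcoe : ∀ p : Kbar[X], ((aeval x p : FN N) : Om) = aeval (x : Om) p := fun p =>
    (aeval_algHom_apply (modularFunctionFieldBar N).val x p).symm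
  have hφ : (((Algebra.norm ↥(OrthoJ.EJ N) y : ↥(OrthoJ.EJ N)) : FN N) : Om) *
      aeval (x : Om) g = aeval (x : Om) f := by
    rw [← hcoe, ← hcoe, ← hrel]
    rfl
  exact rat_max A ⟨(x : Om), hxO⟩ htr b f g (fun m hm => hg _ ⟨m, hm, rfl⟩) hfb
    ⟨_, OrthoJ.coe_norm_mem_Ocal A N ℓ hℓ y hy⟩ hφ (OrthoJ.red_norm_eq_one A N ℓ hℓ y hy hred)

/-- `j ∈ Ocal`. -/
lemma jBar_mem_Ocal : ((jBar N : FN N) : Om) ∈ Ocal A := by
  rw [OrthoJ.coe_jBar A N]
  exact iota_mem_Ocal A _

/-- `red j = j̄`. -/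
lemma red_jBar : red A ⟨((jBar N : FN N) : Om), jBar_mem_Ocal A N⟩ = jqModC (kk A) := by
  rw [red_congr A (OrthoJ.coe_jBar A N) _ (iota_mem_Ocal A _), red_iota, rho_jA]

/-- `1/j ∈ Ocal`. -/
lemma jBar_inv_mem_Ocal : (((jBar N)⁻¹ : FN N) : Om) ∈ Ocal A := by
  have h : red A ⟨((jBar N : FN N) : Om), jBar_mem_Ocal A N⟩ ≠ 0 := by
    rw [red_jBar]
    intro h0
    have := transcendental_rho_jA A
    rw [rho_jA, h0] at this
    exact this isAlgebraic_zero
  have h1 := inv_mem_Ocal A _ h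
  rw [IntermediateField.coe_inv]
  exact h1

/-- `red (1/j) = 1/j̄`. -/
lemma red_jBar_inv :
    red A ⟨(((jBar N)⁻¹ : FN N) : Om), jBar_inv_mem_Ocal A N⟩ = (jqModC (kk A))⁻¹ := by
  have h : red A ⟨((jBar N : FN N) : Om), jBar_mem_Ocal A N⟩ ≠ 0 := by
    rw [red_jBar]
    intro h0
    have := transcendental_rho_jA A
    rw [rho_jA, h0] at this
    exact this isAlgebraic_zero
  have h1 := red_inv A _ h
  rw [red_jBar] at h1
  rw [← h1]
  exact red_congr A (IntermediateField.coe_inv _ _) _ _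

/-- **(MAX'), finite chart.** -/
theorem red_ne_one_fin (hℓ : ¬ ℓ ∣ N) (P : Place Kbar (FN N)) (hPfin : FinPl A N P)
    (y : FN N) (hy : (y : Om) ∈ Ocal A) (hch : IsChartFin A N y)
    (hP : y ∈ P.toValuationSubring.nonunits) : red A ⟨(y : Om), hy⟩ ≠ 1 := by
  intro hred
  have hxt := FibreCount.transcendental_jBar N
  have := FibreCount.finiteDimensional N
  have := Char0.isSeparable_jBar N
  obtain ⟨a, ha⟩ := hPfin
  have hy0 : y ≠ 0 := by
    rintro rfl
    have h0 : (⟨((0 : FN N) : Om), hy⟩ : Ocal A) = 0 := rfl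
    rw [h0, map_zero] at hred
    exact zero_ne_one hred
  have htr : Transcendental (kk A) (red A ⟨((jBar N : FN N) : Om), jBar_mem_Ocal A N⟩) := by
    rw [red_jBar, ← rho_jA]
    exact transcendental_rho_jA A
  refine max_core A N ℓ hℓ (jBar N) hxt rfl (jBar_mem_Ocal A N) htr a P
    ((ord_pos_iff_mem_nonunits P (FFPlaces.sub_algebraMap_ne_zero hxt _)).mpr ha)
    y hy hred ?_ ((ord_pos_iff_mem_nonunits P hy0).mpr hP)
  intro m hm v hv
  refine hch.2 v ⟨a + m, ?_⟩
  exact (ord_pos_iff_mem_nonunits v (FFPlaces.sub_algebraMap_ne_zero hxt _)).mp hv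

/-- A place not of finite type is a zero of `1/j - b` for some `b ∈ 𝔪_A`. -/
theorem exists_inv_sub_of_not_finPl (P : Place Kbar (FN N)) (hP : ¬ FinPl A N P) :
    ∃ b : A, b ∈ IsLocalRing.maximalIdeal A ∧
      0 < P.ord ((jBar N)⁻¹ - algebraMap Kbar (FN N) (b : Kbar)) := by
  have hxt := FibreCount.transcendental_jBar N
  have := FibreCount.finiteDimensional N
  have := Char0.isSeparable_jBar N
  have hj0 : jBar N ≠ 0 := fun h0 => hxt (h0 ▸ isAlgebraic_zero)
  by_cases hj : jBar N ∈ P.toValuationSubring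
  · obtain ⟨c, hc, -⟩ := FFSep.exists_unique_zero hxt P hj
    have hcA : c ∉ A := by
      intro hcA
      exact hP ⟨⟨c, hcA⟩, (ord_pos_iff_mem_nonunits P
        (FFPlaces.sub_algebraMap_ne_zero hxt _)).mp hc⟩
    obtain ⟨hinv, hmax⟩ := inv_mem_maximalIdeal_of_not_mem A hcA
    have hc0 : c ≠ 0 := fun h0 => hcA (h0 ▸ A.zero_mem)
    refine ⟨⟨c⁻¹, hinv⟩, hmax, ?_⟩
    have hjord : P.ord (jBar N) = 0 := by
      have h := (ord_aeval_eq_zero P hc (X : Kbar[X]) (by rw [eval_X]; exact hc0)).2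
      rwa [aeval_X] at h
    have hc0' : algebraMap Kbar (FN N) c ≠ 0 := by simpa using hc0
    have hsub : jBar N - algebraMap Kbar (FN N) c ≠ 0 := FFPlaces.sub_algebraMap_ne_zero hxt c
    have key : (jBar N)⁻¹ - algebraMap Kbar (FN N) c⁻¹ =
        -(jBar N - algebraMap Kbar (FN N) c) * (jBar N * algebraMap Kbar (FN N) c)⁻¹ := by
      rw [map_inv₀]
      field_simp
      ring
    show 0 < P.ord ((jBar N)⁻¹ - algebraMap Kbar (FN N) c⁻¹)
    rw [key, P.ord_mul (neg_ne_zero.mpr hsub) (inv_ne_zero (mul_ne_zero hj0 hc0')),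
      FFSep.ord_neg_eq, P.ord_inv, P.ord_mul hj0 hc0', hjord, FFPlaces.ord_algebraMap]
    simpa using hc
  · refine ⟨0, zero_mem _, ?_⟩
    have h1 := (FFPlaces.ord_neg_iff P hj0).mpr hj
    rw [ZeroMemClass.coe_zero, map_zero, sub_zero, P.ord_inv]
    omega

/-- A zero of `1/j - b`, `b ∈ 𝔪_A`, is not of finite type. -/
theorem not_finPl_of_inv_sub (v : Place Kbar (FN N)) (b : A)
    (hb : b ∈ IsLocalRing.maximalIdeal A)
    (hv : 0 < v.ord ((jBar N)⁻¹ - algebraMap Kbar (FN N) (b : Kbar))) : ¬ FinPl A N v := by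
  have hxt := FibreCount.transcendental_jBar N
  have hj0 : jBar N ≠ 0 := fun h0 => hxt (h0 ▸ isAlgebraic_zero)
  rintro ⟨a, ha⟩
  have hne : (jBar N)⁻¹ - algebraMap Kbar (FN N) (b : Kbar) ≠ 0 := by
    intro h0
    rw [h0, Place.ord_zero] at hv
    exact lt_irrefl _ hv
  have hjinv : (jBar N)⁻¹ ∈ v.toValuationSubring := mem_of_ord_sub_pos v hv
  have hjinv0 : (jBar N)⁻¹ ≠ 0 := inv_ne_zero hj0
  have hsub : jBar N - algebraMap Kbar (FN N) (a : Kbar) ≠ 0 :=
    FFPlaces.sub_algebraMap_ne_zero hxt _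
  have ha1 := (ord_pos_iff_mem_nonunits v hsub).mpr ha
  -- `1 - a b = (j - a) * j⁻¹ + a * (j⁻¹ - b)`
  have key : algebraMap Kbar (FN N) (1 - (a : Kbar) * (b : Kbar)) =
      (jBar N - algebraMap Kbar (FN N) (a : Kbar)) * (jBar N)⁻¹ +
        algebraMap Kbar (FN N) (a : Kbar) *
          ((jBar N)⁻¹ - algebraMap Kbar (FN N) (b : Kbar)) := by
    rw [map_sub, map_one, map_mul]
    field_simp
    ring
  have h1 : (jBar N - algebraMap Kbar (FN N) (a : Kbar)) * (jBar N)⁻¹ = 0 ∨
      0 < v.ord ((jBar N - algebraMap Kbar (FN N) (a : Kbar)) * (jBar N)⁻¹) := by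
    right
    rw [v.ord_mul hsub hjinv0]
    have := (FFPlaces.mem_iff_ord_nonneg v hjinv0).mp hjinv
    omega
  have h2 : algebraMap Kbar (FN N) (a : Kbar) *
      ((jBar N)⁻¹ - algebraMap Kbar (FN N) (b : Kbar)) = 0 ∨
      0 < v.ord (algebraMap Kbar (FN N) (a : Kbar) *
        ((jBar N)⁻¹ - algebraMap Kbar (FN N) (b : Kbar))) := by
    by_cases ha0 : algebraMap Kbar (FN N) (a : Kbar) = 0
    · left
      rw [ha0, zero_mul]
    · right
      rw [v.ord_mul ha0 hne, FFPlaces.ord_algebraMap]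
      omega
  have h3 := FFSep.eq_zero_or_ord_pos_add v h1 h2
  rw [← key, FFPlaces.ord_algebraMap] at h3
  have h4 : 1 - (a : Kbar) * (b : Kbar) = 0 := by
    rcases h3 with h3 | h3
    · exact (map_eq_zero (algebraMap Kbar (FN N))).mp h3
    · exact absurd h3 (lt_irrefl _)
  -- so `b` is a unit of `A`
  have h5 : a * b = 1 := by
    apply Subtype.ext
    rw [Subring.coe_mul]
    exact (sub_eq_zero.mp h4).symm
  exact (IsLocalRing.mem_maximalIdeal _).mp hb (IsUnit.of_mul_eq_one a (by rw [mul_comm]; exact h5))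

/-- **(MAX'), chart at infinity.** -/
theorem red_ne_one_inf (hℓ : ¬ ℓ ∣ N) (P : Place Kbar (FN N)) (hPinf : ¬ FinPl A N P)
    (y : FN N) (hy : (y : Om) ∈ Ocal A) (hch : IsChartInf A N y)
    (hP : y ∈ P.toValuationSubring.nonunits) : red A ⟨(y : Om), hy⟩ ≠ 1 := by
  intro hred
  have hxt := FibreCount.transcendental_jBar N
  have := FibreCount.finiteDimensional N
  have := Char0.isSeparable_jBar N
  have := FFSep.finiteDimensional_inv (K := Kbar) (jBar N)
  have := FFSep.isSeparable_inv (K := Kbar) (jBar N)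
  have hxt' : Transcendental Kbar (jBar N)⁻¹ := FFPlaces.transcendental_inv hxt
  obtain ⟨b, hb, hPb⟩ := exists_inv_sub_of_not_finPl A N P hPinf
  have hy0 : y ≠ 0 := by
    rintro rfl
    have h0 : (⟨((0 : FN N) : Om), hy⟩ : Ocal A) = 0 := rfl
    rw [h0, map_zero] at hred
    exact zero_ne_one hred
  have htr : Transcendental (kk A)
      (red A ⟨(((jBar N)⁻¹ : FN N) : Om), jBar_inv_mem_Ocal A N⟩) := by
    rw [red_jBar_inv]
    have h := transcendental_rho_jA A
    rw [rho_jA] at h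
    exact fun h' => h (IsAlgebraic.inv_iff.mp h')
  refine max_core A N ℓ hℓ (jBar N)⁻¹ hxt' (FFPlaces.adjoin_inv (K := Kbar) (jBar N))
    (jBar_inv_mem_Ocal A N) htr b P hPb y hy hred ?_ ((ord_pos_iff_mem_nonunits P hy0).mpr hP)
  intro m hm v hv
  exact hch.2 v (not_finPl_of_inv_sub A N v (b + m) (add_mem hb hm) hv)

/-- **(MAX')** a chart element at `P` vanishing at `P` does not reduce to `1`. -/
theorem red_ne_one (hℓ : ¬ ℓ ∣ N) (P : Place Kbar (FN N)) (y : FN N)
    (hy : (y : Om) ∈ Ocal A) (hch : IsChart A N P y)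
    (hP : y ∈ P.toValuationSubring.nonunits) : red A ⟨(y : Om), hy⟩ ≠ 1 := by
  rcases hch with ⟨hfin, hc⟩ | ⟨hinf, hc⟩
  · exact red_ne_one_fin A N ℓ hℓ P hfin y hy hc hP
  · exact red_ne_one_inf A N ℓ hℓ P hinf y hy hc hP

omit [NeZero N] in
/-- Coercion of `1 - c y` to `Q̄((q))`. -/
lemma coe_one_sub_const_mul (c : Kbar) (y : FN N) :
    ((1 - algebraMap Kbar (FN N) c * y : FN N) : Om) = 1 - HahnSeries.C c * (y : Om) := by
  rw [AddSubgroupClass.coe_sub, OneMemClass.coe_one, MulMemClass.coe_mul,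
    IntermediateField.coe_algebraMap_apply, algebraMap_LS_eq_C]

/-- **[CHART] (C1)** the value of a chart element at a place of its chart lies in `A`. -/
theorem chartVal (hℓ : ¬ ℓ ∣ N) : Plan2.ChartVal A N := by
  intro P y hch
  have hxt := FibreCount.transcendental_jBar N
  have := FibreCount.finiteDimensional N
  have := Char0.isSeparable_jBar N
  have hyO : (y : Om) ∈ Ocal A := by
    rcases hch with ⟨-, h⟩ | ⟨-, h⟩
    · exact h.1
    · exact h.1
  have hyP : y ∈ P.toValuationSubring := by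
    rcases hch with ⟨hfin, h⟩ | ⟨hinf, h⟩
    · exact h.2 P hfin
    · exact h.2 P hinf
  obtain ⟨c, hc⟩ := FFSep.exists_residue (jBar N) P hyP
  have hmem : y - algebraMap Kbar (FN N) c ∈ P.toValuationSubring.nonunits := by
    rcases hc with hc | hc
    · rw [hc, sub_self]
      exact zero_mem _
    · have hne : y - algebraMap Kbar (FN N) c ≠ 0 := by
        intro h0
        rw [h0, Place.ord_zero] at hc
        exact lt_irrefl _ hc
      exact (ord_pos_iff_mem_nonunits P hne).mp hc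
  by_cases hcA : c ∈ A
  · exact ⟨⟨c, hcA⟩, hmem⟩
  exfalso
  obtain ⟨hinv, hmax⟩ := inv_mem_maximalIdeal_of_not_mem A hcA
  have hc0 : c ≠ 0 := fun h0 => hcA (h0 ▸ A.zero_mem)
  have hcoe := coe_one_sub_const_mul N c⁻¹ y
  have hy'O : ((1 - algebraMap Kbar (FN N) c⁻¹ * y : FN N) : Om) ∈ Ocal A := by
    rw [hcoe]
    exact sub_mem (one_mem _) (mul_mem (C_mem_Ocal A hinv) hyO)
  have hred : red A ⟨((1 - algebraMap Kbar (FN N) c⁻¹ * y : FN N) : Om), hy'O⟩ = 1 := by
    have h1 : (⟨((1 - algebraMap Kbar (FN N) c⁻¹ * y : FN N) : Om), hy'O⟩ : Ocal A) =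
        1 - ⟨HahnSeries.C c⁻¹, C_mem_Ocal A hinv⟩ * ⟨(y : Om), hyO⟩ := Subtype.ext hcoe
    rw [h1, map_sub, map_one, map_mul, red_C A hinv, (IsLocalRing.residue_eq_zero_iff _).mpr hmax,
      map_zero, zero_mul, sub_zero]
  have hmemO : ∀ v : Place Kbar (FN N), y ∈ v.toValuationSubring →
      1 - algebraMap Kbar (FN N) c⁻¹ * y ∈ v.toValuationSubring := fun v hv =>
    sub_mem (one_mem _) (mul_mem (v.algebraMap_mem' _) hv)
  have hch' : IsChart A N P (1 - algebraMap Kbar (FN N) c⁻¹ * y) := by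
    rcases hch with ⟨hfin, h⟩ | ⟨hinf, h⟩
    · exact Or.inl ⟨hfin, hy'O, fun v hv => hmemO v (h.2 v hv)⟩
    · exact Or.inr ⟨hinf, hy'O, fun v hv => hmemO v (h.2 v hv)⟩
  have hc0' : algebraMap Kbar (FN N) c ≠ 0 := by simpa using hc0
  have h2 : 1 - algebraMap Kbar (FN N) c⁻¹ * y =
      -(algebraMap Kbar (FN N) c⁻¹) * (y - algebraMap Kbar (FN N) c) := by
    rw [map_inv₀]
    field_simp
    ring
  have hP' : 1 - algebraMap Kbar (FN N) c⁻¹ * y ∈ P.toValuationSubring.nonunits := by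
    rcases hc with hc | hc
    · rw [h2, hc, sub_self, mul_zero]
      exact zero_mem _
    · have hne : y - algebraMap Kbar (FN N) c ≠ 0 := by
        intro h0
        rw [h0, Place.ord_zero] at hc
        exact lt_irrefl _ hc
      have hne2 : -(algebraMap Kbar (FN N) c⁻¹) ≠ 0 := by
        rw [neg_ne_zero]
        simpa using hc0
      rw [h2]
      apply (ord_pos_iff_mem_nonunits P (mul_ne_zero hne2 hne)).mp
      rw [P.ord_mul hne2 hne, FFSep.ord_neg_eq, FFPlaces.ord_algebraMap]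
      omega
  exact red_ne_one A N ℓ hℓ P _ hy'O hch' hP' hred

end Fermat.Agent.S37.RMap

end
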